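import Fermat.Agent.H39.S58.CompareCore
import Fermat.Agent.H51.S58.FrobRel
import Fermat.Agent.H64.FrobPowDenseFinal
import Fermat.Agent.H81.Cyclo.Roots

/-!
# S58 / CMP (row 1104, helper39): `compare : TorsionFiniteLevelStatement → CompareStatement`

For `g ∈ G_ℚ` and `k`: let `L` be the compositum of the level field of `E[lam^k]`, of
`ℚ(μ_{lam^k})` and of the field through which `ρ` mod `lam^k` factors.  By Frobenius density
(`Fermat.Agent.H64.frobPowDense`) there are a prime `ℓ ≥ 5` outside `S`, good for `W`,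
`ℓ ≠ lam`, a Frobenius element `φ` at `ℓ` and `m` with `φ^m = g` on `L`.  Then
`t := V_m(a_ℓ, ℓ)` (Lucas sequence) and `d := ℓ^m` work.
-/

set_option autoImplicit false
set_option linter.style.haveILetI false

noncomputable section

open Polynomial WeierstrassCurve WeierstrassCurve.Affine

namespace Fermat.Agent.H39.S58

open Fermat.Agent.H51.S58

/-! ## Roots of unity -/

theorem s58_frob_pow_root {A : ValuationSubring (AlgebraicClosure ℚ)} {ℓ : ℕ} (hℓ : ℓ.Prime)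
    (hA : A.LiesOverPrime ℓ) {φ : GQ} (hφ : A.IsFrobeniusAt φ ℓ) {n : ℕ} (hn : ¬ ℓ ∣ n)
    {ζ : AlgebraicClosure ℚ} (hζ : ζ ^ n = 1) (m : ℕ) : (φ ^ m) ζ = ζ ^ (ℓ ^ m) := by
  induction m with
  | zero => simp
  | succ m ih =>
    rw [pow_succ' φ, AlgEquiv.mul_apply, ih, map_pow,
      Fermat.Agent.H81.Cyclo.frobenius_root_of_unity hℓ hA hφ hn hζ, ← pow_mul, ← pow_succ']

theorem s58_finite_roots {n : ℕ} (hn : 0 < n) :
    {ζ : AlgebraicClosure ℚ | ζ ^ n = 1}.Finite := by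
  have hp : (X ^ n - 1 : (AlgebraicClosure ℚ)[X]) ≠ 0 := by
    have := Polynomial.X_pow_sub_C_ne_zero (R := AlgebraicClosure ℚ) hn 1
    rwa [map_one] at this
  refine (Polynomial.finite_setOfPred_isRoot hp).subset ?_
  intro ζ hζ
  have hζ' : ζ ^ n = 1 := hζ
  show IsRoot (X ^ n - 1 : (AlgebraicClosure ℚ)[X]) ζ
  rw [IsRoot.def, eval_sub, eval_pow, eval_X, eval_one, hζ', sub_self]

theorem s58_finiteDimensional_cyclo {n : ℕ} (hn : 0 < n) :
    FiniteDimensional ℚ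
      ↥(IntermediateField.adjoin ℚ {ζ : AlgebraicClosure ℚ | ζ ^ n = 1}) := by
  haveI : Finite ↥{ζ : AlgebraicClosure ℚ | ζ ^ n = 1} := (s58_finite_roots hn).to_subtype
  exact IntermediateField.finiteDimensional_adjoin
    (fun x _ => ((AlgebraicClosure.isAlgebraic ℚ).isAlgebraic x).isIntegral)

/-! ## The torsion side -/

section Torsion

variable (W : WeierstrassCurve ℤ)

/-- The `n`-torsion of `E(ℚ̄)`. -/
abbrev s58Tors (n : ℕ) : Type := ↥(Submodule.torsionBy ℤ (EPt W) (n : ℤ))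

/-- The Lucas relation for the powers of a Frobenius element on `E[n]`. -/
theorem s58_torsion_lucas (n : ℕ) (φ : GQ) (a l : ℤ)
    (hrel : ∀ P : EPt W, n • P = 0 → φ • φ • P - a • φ • P + l • P = 0) (m : ℕ)
    (P : EPt W) (hP : n • P = 0) :
    (φ ^ m) • (φ ^ m) • P - s58LucasV a l m • (φ ^ m) • P + (l ^ m : ℤ) • P = 0 := by
  have hmem : ∀ Q : EPt W, n • Q = 0 →
      Q ∈ Submodule.torsionBy ℤ (EPt W) (n : ℤ) := by
    intro Q hQ
    rw [Submodule.mem_torsionBy_iff, natCast_zsmul]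
    exact hQ
  set x : Module.End (ZMod n) (s58Tors W n) :=
    WeierstrassCurve.Affine.Point.galoisRepModuleEnd ℚ
      (W.map (Int.castRingHom ℚ)).toAffine n φ with hx
  have hxrel : x * x - ((a : ℤ) : Module.End (ZMod n) (s58Tors W n)) * x +
      ((l : ℤ) : Module.End (ZMod n) (s58Tors W n)) = 0 := by
    apply LinearMap.ext
    intro Q
    apply Subtype.ext
    have hQ : n • (Q : EPt W) = 0 := by
      have := Q.2
      rw [Submodule.mem_torsionBy_iff, natCast_zsmul] at this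
      exact this
    have h := hrel (Q : EPt W) hQ
    simp only [LinearMap.add_apply, LinearMap.sub_apply, Module.End.mul_apply,
      Module.End.intCast_apply, LinearMap.zero_apply]
    exact h
  have hluc := s58_lucas_relation_cast x a l hxrel m
  have h1 := congrArg
    (fun f : Module.End (ZMod n) (s58Tors W n) => ((f ⟨P, hmem P hP⟩ : s58Tors W n) : EPt W))
    hluc
  simp only [LinearMap.add_apply, LinearMap.sub_apply, Module.End.mul_apply,
    Module.End.intCast_apply, LinearMap.zero_apply] at h1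
  have hxm : x ^ m = WeierstrassCurve.Affine.Point.galoisRepModuleEnd ℚ
      (W.map (Int.castRingHom ℚ)).toAffine n (φ ^ m) := by
    rw [hx, map_pow]
  rw [hxm] at h1
  exact h1

end Torsion

/-! ## The main theorem -/

/-- **CMP** (row 1104). -/
theorem compare (hFin : TorsionFiniteLevelStatement) : CompareStatement := by
  intro W hΔ lam _ hlam2 O _ _ _ _ hlamO ρ S hFrob g k
  have hlamP : lam.Prime := Fact.out
  have hnpos : 0 < lam ^ k := pow_pos hlamP.pos k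
  have hx : ((lam ^ k : ℕ) : O) ≠ 0 := Nat.cast_ne_zero.mpr hnpos.ne'
  obtain ⟨e, he⟩ := s58_exists_pow_le_span hx
  -- the three fields
  obtain ⟨L₁, hL₁fin, hL₁⟩ := hFin W hΔ (lam ^ k) hnpos
  obtain ⟨L₃, hL₃fin, hL₃⟩ := ρ.isAdicContinuous e
  have hL₂fin := s58_finiteDimensional_cyclo hnpos
  haveI := hL₁fin
  haveI := hL₂fin
  haveI := hL₃fin
  have hLfin : FiniteDimensional ℚ
      ↥(L₁ ⊔ IntermediateField.adjoin ℚ {ζ : AlgebraicClosure ℚ | ζ ^ (lam ^ k) = 1} ⊔ L₃) :=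
    inferInstance
  -- Frobenius density
  obtain ⟨ℓ, A, φ, m, hℓ, hℓS', hA, hφ, hφg⟩ := Fermat.Agent.H64.frobPowDense _ hLfin g
    (S ∪ {2, 3, lam} ∪ W.Δ.natAbs.primeFactors)
  simp only [Finset.mem_union, Finset.mem_insert, Finset.mem_singleton, not_or] at hℓS'
  obtain ⟨⟨hℓS, hℓ2, hℓ3, hℓlam⟩, hℓΔ⟩ := hℓS'
  have hgood : ¬ (ℓ : ℤ) ∣ W.Δ := by
    intro hdvd
    apply hℓΔ
    rw [Nat.mem_primeFactors]
    refine ⟨hℓ, ?_, Int.natAbs_ne_zero.mpr hΔ⟩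
    exact Int.natCast_dvd.mp hdvd
  have hℓ5 : 5 ≤ ℓ := by
    have h2 := hℓ.two_le
    rcases Nat.lt_or_ge ℓ 5 with h | h
    · exfalso
      have h4 : ℓ = 4 := by omega
      rw [h4] at hℓ
      exact absurd hℓ (by norm_num)
    · exact h
  have hℓn : ¬ ℓ ∣ lam ^ k := fun h =>
    hℓlam ((Nat.prime_dvd_prime_iff_eq hℓ hlamP).mp (hℓ.dvd_of_dvd_pow h))
  have hodd : Odd (lam ^ k) := (hlamP.odd_of_ne_two hlam2).pow
  -- `τ = φ^{-m} g` fixes `L`
  have hg : g = φ ^ m * ((φ ^ m)⁻¹ * g) := by rw [mul_inv_cancel_left]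
  have hτL : ∀ x ∈ L₁ ⊔ IntermediateField.adjoin ℚ
      {ζ : AlgebraicClosure ℚ | ζ ^ (lam ^ k) = 1} ⊔ L₃, ((φ ^ m)⁻¹ * g) x = x := by
    intro x hx
    rw [AlgEquiv.mul_apply, ← hφg x hx]
    exact (φ ^ m).symm_apply_apply x
  have hτ₁ : ∀ x ∈ L₁, ((φ ^ m)⁻¹ * g) x = x := fun x hx =>
    hτL x ((le_sup_left.trans le_sup_left : L₁ ≤ _) hx)
  have hτ₃ : ∀ x ∈ L₃, ((φ ^ m)⁻¹ * g) x = x := fun x hx =>
    hτL x ((le_sup_right : L₃ ≤ _) hx)
  -- the Frobenius data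
  have hchar := hFrob ℓ hℓ hℓS A hA φ hφ
  have hchar' : LinearMap.charpoly (ρ.ρ φ) =
      X ^ 2 - C (((W.apOfModel ℓ : ℤ) : O)) * X + C ((((ℓ : ℕ) : ℤ) : O)) := by
    rw [Int.cast_natCast]
    exact hchar
  have hT : ∀ v : ρ.V, ρ.ρ ((φ ^ m)⁻¹ * g) v - v ∈
      Ideal.span {((lam ^ k : ℕ) : O)} • (⊤ : Submodule O ρ.V) := fun v =>
    Submodule.smul_mono_left he (hL₃ _ hτ₃ v)
  obtain ⟨htr, hdet⟩ := s58_trace_det_congr (Ideal.span {((lam ^ k : ℕ) : O)})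
    (ρ.ρ φ ^ m) (ρ.ρ ((φ ^ m)⁻¹ * g)) hT
  have hρg : ρ.ρ g = ρ.ρ φ ^ m * ρ.ρ ((φ ^ m)⁻¹ * g) := by
    rw [← map_pow, ← map_mul, ← hg]
  refine ⟨s58LucasV (W.apOfModel ℓ) (ℓ : ℤ) m, ℓ ^ m, ?_, ?_, ?_, ?_⟩
  · rw [hρg, ← s58_trace_pow ρ.finrank_eq (ρ.ρ φ) _ _ hchar' m]
    exact htr
  · rw [hρg, Nat.cast_pow ℓ m, ← s58_det_pow ρ.finrank_eq (ρ.ρ φ) _ _ hchar m]
    exact hdet
  · intro ζ hζ
    have hζL : ζ ∈ L₁ ⊔ IntermediateField.adjoin ℚ
        {ζ : AlgebraicClosure ℚ | ζ ^ (lam ^ k) = 1} ⊔ L₃ :=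
      (le_sup_right.trans le_sup_left :
        IntermediateField.adjoin ℚ {ζ : AlgebraicClosure ℚ | ζ ^ (lam ^ k) = 1} ≤ _)
        (IntermediateField.subset_adjoin ℚ _ hζ)
    rw [← hφg ζ hζL]
    exact s58_frob_pow_root hℓ hA hφ hℓn hζ m
  · intro P hP
    have hfix : ∀ Q : EPt W, (lam ^ k) • Q = 0 → g • Q = (φ ^ m) • Q := by
      intro Q hQ
      conv_lhs => rw [hg]
      rw [mul_smul, hL₁ _ hτ₁ Q hQ]
    have hφP : (lam ^ k) • ((φ ^ m) • P) = 0 := by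
      rw [← natCast_zsmul, ← WeierstrassCurve.Affine.Point.algEquiv_smul_zsmul, natCast_zsmul,
        hP, smul_zero]
    have hrel : ∀ Q : EPt W, (lam ^ k) • Q = 0 →
        φ • φ • Q - W.apOfModel ℓ • φ • Q + (ℓ : ℤ) • Q = 0 := fun Q hQ =>
      frobeniusRelation_of_five_le W ℓ hℓ hℓ5 hgood A hA φ hφ (lam ^ k) hodd hℓn Q hQ
    have h1 := s58_torsion_lucas W (lam ^ k) φ (W.apOfModel ℓ) (ℓ : ℤ) hrel m P hP
    rw [hfix P hP, hfix _ hφP, Nat.cast_pow ℓ m]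
    exact h1

end Fermat.Agent.H39.S58

end
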