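import Mathlib

/-!
# S58 / CMP (row 1104, helper39): abstract core (Mathlib only)

* `s58LucasV a l` : the Lucas sequence `V₀ = 2`, `V₁ = a`, `V_{m+2} = a V_{m+1} - l V_m`;
* `s58_lucas_relation` : in any ring, `x² - a x + l = 0` implies
  `(x^m)² - V_m x^m + l^m = 0`;
* `s58_trace_pow`, `s58_det_pow` : trace and determinant of the powers of an endomorphism of a
  free module of rank two with characteristic polynomial `X² - a X + l`;
* `s58_trace_det_congr` : if `T ≡ 1` modulo an ideal `I` then `tr (f T) ≡ tr f` and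
  `det (f T) ≡ det f` modulo `I`;
* `s58_exists_pow_le_span` : in a discrete valuation ring every nonzero principal ideal contains a
  power of the maximal ideal.
-/

set_option autoImplicit false

noncomputable section

open Polynomial

namespace Fermat.Agent.H39.S58

/-! ## The Lucas sequence -/

/-- The Lucas sequence `V_m(a, l)`: `V₀ = 2`, `V₁ = a`, `V_{m+2} = a V_{m+1} - l V_m`. -/
def s58LucasV (a l : ℤ) : ℕ → ℤ
  | 0 => 2
  | 1 => a
  | (n + 2) => a * s58LucasV a l (n + 1) - l * s58LucasV a l n

@[simp] theorem s58LucasV_zero (a l : ℤ) : s58LucasV a l 0 = 2 := rfl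

@[simp] theorem s58LucasV_one (a l : ℤ) : s58LucasV a l 1 = a := rfl

theorem s58LucasV_add_two (a l : ℤ) (n : ℕ) :
    s58LucasV a l (n + 2) = a * s58LucasV a l (n + 1) - l * s58LucasV a l n := rfl

/-- In a commutative ring: `x^m + (a - x)^m = V_m` if `x² = a x - l`. -/
theorem s58_pow_add_pow_comm {R : Type*} [CommRing R] (x : R) (a l : ℤ)
    (h : x * x - (a : R) * x + (l : R) = 0) (m : ℕ) :
    x ^ m + ((a : R) - x) ^ m = (s58LucasV a l m : R) := by
  induction m using Nat.twoStepInduction with
  | zero => simp; norm_num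
  | one => simp
  | more n h1 h2 =>
    rw [s58LucasV_add_two]
    push_cast
    rw [← h1, ← h2]
    linear_combination (x ^ n + ((a : R) - x) ^ n) * h

/-- The Lucas relation in a commutative ring. -/
theorem s58_lucas_relation_comm {R : Type*} [CommRing R] (x : R) (a l : ℤ)
    (h : x * x - (a : R) * x + (l : R) = 0) (m : ℕ) :
    x ^ m * x ^ m - (s58LucasV a l m : R) * x ^ m + (l : R) ^ m = 0 := by
  have h1 := s58_pow_add_pow_comm x a l h m
  have h2 : x * ((a : R) - x) = (l : R) := by linear_combination -h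
  rw [← h1, ← h2, mul_pow]
  ring

/-- The Lucas relation as a divisibility of integer polynomials. -/
theorem s58_lucas_dvd (a l : ℤ) (m : ℕ) :
    (X * X - C a * X + C l : ℤ[X]) ∣
      X ^ m * X ^ m - C (s58LucasV a l m) * X ^ m + C l ^ m := by
  rw [← Ideal.mem_span_singleton, ← Ideal.Quotient.eq_zero_iff_mem]
  set π := Ideal.Quotient.mk (Ideal.span {(X * X - C a * X + C l : ℤ[X])}) with hπ
  have h0 : π (X * X - C a * X + C l) = 0 :=
    Ideal.Quotient.eq_zero_iff_mem.mpr (Ideal.mem_span_singleton_self _)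
  have hC : ∀ c : ℤ, π (C c) = (c : ℤ[X] ⧸ Ideal.span {(X * X - C a * X + C l : ℤ[X])}) := by
    intro c
    rw [eq_intCast (C : ℤ →+* ℤ[X]) c, map_intCast]
  have h := s58_lucas_relation_comm (π X) a l (by
    rw [← hC a, ← hC l, ← map_mul, ← map_mul, ← map_sub, ← map_add]
    exact h0) m
  rw [map_add, map_sub, map_mul, map_mul, map_pow, map_pow, hC, hC]
  exact h

/-- **The Lucas relation** in an arbitrary ring. -/
theorem s58_lucas_relation {R : Type*} [Ring R] (x : R) (a l : ℤ)
    (h : x * x - a • x + l • (1 : R) = 0) (m : ℕ) :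
    x ^ m * x ^ m - s58LucasV a l m • x ^ m + (l ^ m) • (1 : R) = 0 := by
  obtain ⟨Q, hQ⟩ := s58_lucas_dvd a l m
  have h1 := congrArg (Polynomial.aeval (R := ℤ) x) hQ
  have h2 : Polynomial.aeval (R := ℤ) x (X * X - C a * X + C l : ℤ[X]) = 0 := by
    simp only [map_add, map_sub, map_mul, aeval_X, aeval_C]
    simp only [eq_intCast]
    rw [← zsmul_eq_mul, ← zsmul_one (R := R) l]
    exact h
  rw [map_mul, h2, zero_mul] at h1
  simp only [map_add, map_sub, map_mul, map_pow, aeval_X, aeval_C] at h1
  simp only [eq_intCast] at h1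
  rw [← zsmul_eq_mul] at h1
  rw [zsmul_one, Int.cast_pow]
  exact h1

/-- The Lucas relation in an arbitrary ring, with integer casts instead of scalar
multiplications. -/
theorem s58_lucas_relation_cast {R : Type*} [Ring R] (x : R) (a l : ℤ)
    (h : x * x - (a : R) * x + (l : R) = 0) (m : ℕ) :
    x ^ m * x ^ m - (s58LucasV a l m : R) * x ^ m + ((l ^ m : ℤ) : R) = 0 := by
  have h1 := s58_lucas_relation x a l (by rw [zsmul_eq_mul, zsmul_one]; exact h) m
  rwa [zsmul_eq_mul, zsmul_one] at h1

/-! ## Trace and determinant of powers -/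

section TracePow

variable {O : Type*} [CommRing O] [Nontrivial O] {V : Type*} [AddCommGroup V] [Module O V]
  [Module.Free O V] [Module.Finite O V]

theorem s58_charpoly_rank_two (hV : Module.finrank O V = 2) (f : Module.End O V) :
    LinearMap.charpoly f = X ^ 2 - C (LinearMap.trace O V f) * X + C (LinearMap.det f) := by
  classical
  have b := Module.finBasisOfFinrankEq O V hV
  rw [← LinearMap.charpoly_toMatrix f b, LinearMap.trace_eq_matrix_trace O b f,
    ← LinearMap.det_toMatrix b f, Matrix.charpoly_fin_two]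

/-- From the characteristic polynomial `X² - a X + l`: trace, determinant and the relation. -/
theorem s58_of_charpoly (hV : Module.finrank O V = 2) (f : Module.End O V) (a l : O)
    (h : LinearMap.charpoly f = X ^ 2 - C a * X + C l) :
    LinearMap.trace O V f = a ∧ LinearMap.det f = l ∧ f * f = a • f - l • (1 : Module.End O V) := by
  have h1 := s58_charpoly_rank_two hV f
  rw [h] at h1
  have ha : LinearMap.trace O V f = a := by
    have := congrArg (fun p : O[X] => p.coeff 1) h1
    simp [coeff_C] at this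
    exact this.symm
  have hl : LinearMap.det f = l := by
    have := congrArg (fun p : O[X] => p.coeff 0) h1
    simp [coeff_X, coeff_C] at this
    exact this.symm
  refine ⟨ha, hl, ?_⟩
  have hCH := LinearMap.aeval_self_charpoly f
  rw [h] at hCH
  simp only [map_add, map_sub, map_mul, map_pow, aeval_X, aeval_C] at hCH
  rw [Algebra.algebraMap_eq_smul_one, Algebra.algebraMap_eq_smul_one, smul_mul_assoc, one_mul,
    pow_two] at hCH
  rw [eq_sub_iff_add_eq, ← sub_eq_zero]
  rw [← hCH]
  abel

theorem s58_trace_pow (hV : Module.finrank O V = 2) (f : Module.End O V) (a l : ℤ)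
    (h : LinearMap.charpoly f = X ^ 2 - C (a : O) * X + C (l : O)) (m : ℕ) :
    LinearMap.trace O V (f ^ m) = (s58LucasV a l m : O) := by
  obtain ⟨ha, -, hrel⟩ := s58_of_charpoly hV f _ _ h
  induction m using Nat.twoStepInduction with
  | zero =>
    rw [pow_zero, LinearMap.trace_one, hV]
    simp
  | one => rw [pow_one, ha]; simp
  | more n h1 h2 =>
    have hpow : f ^ (n + 2) = (a : O) • f ^ (n + 1) - (l : O) • f ^ n := by
      rw [pow_add, pow_two, hrel, mul_sub, mul_smul_comm, mul_smul_comm, mul_one, ← pow_succ]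
    rw [hpow, map_sub, map_smul, map_smul, h1, h2, s58LucasV_add_two]
    push_cast
    simp only [smul_eq_mul]

theorem s58_det_pow (hV : Module.finrank O V = 2) (f : Module.End O V) (a l : O)
    (h : LinearMap.charpoly f = X ^ 2 - C a * X + C l) (m : ℕ) :
    LinearMap.det (f ^ m) = l ^ m := by
  obtain ⟨-, hl, -⟩ := s58_of_charpoly hV f _ _ h
  rw [map_pow, hl]

end TracePow

/-! ## Congruences -/

section Congr

variable {O : Type*} [CommRing O] {V : Type*} [AddCommGroup V] [Module O V]

theorem s58_repr_mem {ι : Type*} (b : Module.Basis ι O V) (I : Ideal O) {x : V}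
    (hx : x ∈ I • (⊤ : Submodule O V)) (i : ι) : b.repr x i ∈ I := by
  refine Submodule.smul_induction_on hx ?_ ?_
  · intro r hr v _
    rw [map_smul, Finsupp.smul_apply, smul_eq_mul]
    exact I.mul_mem_right _ hr
  · intro x y hx hy
    rw [map_add, Finsupp.add_apply]
    exact I.add_mem hx hy

variable [Module.Free O V] [Module.Finite O V]

/-- If `T ≡ 1` modulo `I`, then `tr (f T) ≡ tr f` and `det (f T) ≡ det f` modulo `I`. -/
theorem s58_trace_det_congr (I : Ideal O) (f T : Module.End O V)
    (hT : ∀ v : V, T v - v ∈ I • (⊤ : Submodule O V)) :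
    LinearMap.trace O V (f * T) - LinearMap.trace O V f ∈ I ∧
      LinearMap.det (f * T) - LinearMap.det f ∈ I := by
  classical
  let b := Module.Free.chooseBasis O V
  set π := Ideal.Quotient.mk I with hπ
  have hmap : (π.mapMatrix (LinearMap.toMatrix b b T)) = 1 := by
    ext i j
    rw [RingHom.mapMatrix_apply, Matrix.map_apply, LinearMap.toMatrix_apply, Matrix.one_apply]
    have h1 := s58_repr_mem b I (hT (b j)) i
    rw [map_sub, Finsupp.sub_apply, Module.Basis.repr_self, Finsupp.single_apply] at h1
    have h2 := Ideal.Quotient.eq_zero_iff_mem.mpr h1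
    rw [map_sub, sub_eq_zero] at h2
    rw [h2]
    by_cases hij : i = j
    · rw [if_pos hij, if_pos hij.symm, map_one]
    · rw [if_neg hij, if_neg (Ne.symm hij), map_zero]
  have hmul : π.mapMatrix (LinearMap.toMatrix b b (f * T)) =
      π.mapMatrix (LinearMap.toMatrix b b f) := by
    rw [LinearMap.toMatrix_mul, map_mul, hmap, mul_one]
  constructor
  · rw [← Ideal.Quotient.eq_zero_iff_mem, map_sub, sub_eq_zero,
      LinearMap.trace_eq_matrix_trace O b, LinearMap.trace_eq_matrix_trace O b]
    have h1 := AddMonoidHom.map_trace (π : O →+ O ⧸ I) (LinearMap.toMatrix b b (f * T))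
    have h2 := AddMonoidHom.map_trace (π : O →+ O ⧸ I) (LinearMap.toMatrix b b f)
    have h3 := congrArg Matrix.trace hmul
    exact h1.trans (h3.trans h2.symm)
  · rw [← Ideal.Quotient.eq_zero_iff_mem, map_sub, sub_eq_zero,
      ← LinearMap.det_toMatrix b, ← LinearMap.det_toMatrix b, RingHom.map_det, RingHom.map_det,
      hmul]

end Congr

/-! ## Discrete valuation rings -/

theorem s58_exists_pow_le_span {O : Type*} [CommRing O] [IsDomain O]
    [IsDiscreteValuationRing O] {x : O} (hx : x ≠ 0) :
    ∃ n : ℕ, IsLocalRing.maximalIdeal O ^ n ≤ Ideal.span {x} := by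
  obtain ⟨ϖ, hϖ⟩ := IsDiscreteValuationRing.exists_irreducible O
  have hs : Ideal.span {x} ≠ ⊥ := by
    rw [Ne, Ideal.span_singleton_eq_bot]
    exact hx
  obtain ⟨n, hn⟩ := IsDiscreteValuationRing.ideal_eq_span_pow_irreducible hs hϖ
  refine ⟨n, ?_⟩
  rw [hn, hϖ.maximalIdeal_eq, Ideal.span_singleton_pow]

end Fermat.Agent.H39.S58

end
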