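import Fermat.Agent.H51.S58.Interfaces
import Fermat.Agent.H4.FrobRel
import Fermat.Agent.H8.InertiaReduction
import Fermat.Agent.H26.KernelReduction

/-!
# S58 / LOCAL (row 1101, helper39 as second seat): inertia and good reduction

* `goodRedAll : GoodRedAllStatement`: at a prime `q` of good reduction, every torsion point of
  order prime to `q` is `A`-integral with nonsingular reduction;
* `inertiaGoodRed : InertiaGoodRedStatement`: inertia at `q` fixes the torsion points of order
  prime to `q` with nonsingular reduction (general integral model, every prime `q`).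
-/

set_option autoImplicit false
set_option linter.style.haveILetI false

noncomputable section

open WeierstrassCurve WeierstrassCurve.Affine

namespace Fermat.Agent.H39.S58

open Fermat.Agent.H51.S58

/-- The integral model has `A`-integral coefficients. -/
theorem s58_isIntegralAt (W : WeierstrassCurve ℤ) (A : ValuationSubring (AlgebraicClosure ℚ)) :
    Fermat.Agent.H26.IsIntegralAt A.valuation
      ((W.map (Int.castRingHom ℚ))⁄(AlgebraicClosure ℚ)).toAffine := by
  rw [← Fermat.Agent.H4.map_subtype_eq A W]
  exact Fermat.Agent.H4.isIntegralAt_map _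

/-- A torsion point of order prime to `q` has integral `x`-coordinate at every place over `q`. -/
theorem s58_x_mem (W : WeierstrassCurve ℤ) {q : ℕ} (hq : q.Prime)
    (A : ValuationSubring (AlgebraicClosure ℚ)) (hA : A.LiesOverPrime q) {n : ℕ} (hqn : ¬ q ∣ n)
    {x y : AlgebraicClosure ℚ}
    (h : ((W.map (Int.castRingHom ℚ))⁄(AlgebraicClosure ℚ)).toAffine.Nonsingular x y)
    (hP : n • (Point.some x y h : EPt W) = 0) : x ∈ A := by
  by_contra hx
  have hK : Fermat.Agent.H26.InKer A.valuation (Point.some x y h) :=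
    (Fermat.Agent.H26.one_lt_valuation_iff A).mpr hx
  have h0 := Fermat.Agent.H26.eq_zero_of_nsmul_eq_zero (s58_isIntegralAt W A) hK
    (Fermat.Agent.H4.valuation_natCast_eq_one A hq hA hqn) hP
  cases h0

/-- **INERTIA-E0** (row 1101). -/
theorem inertiaGoodRed : InertiaGoodRedStatement := by
  intro W q hq A hA σ hσ n hqn _ P hP hgood
  have hE := Fermat.Agent.H4.map_subtype_eq A W
  have hI := s58_isIntegralAt W A
  have hmem : ∀ z : ℤ, ((z : ℤ) : AlgebraicClosure ℚ) ∈ A := fun z => intCast_mem A z
  rcases P with _ | ⟨x, y, h⟩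
  · rfl
  · obtain ⟨hx, hy, hns⟩ := hgood
    have ha₁ : ((W.map (Int.castRingHom ℚ))⁄(AlgebraicClosure ℚ)).a₁ ∈ A :=
      (A.valuation_le_one_iff _).mp hI.a₁
    have ha₂ : ((W.map (Int.castRingHom ℚ))⁄(AlgebraicClosure ℚ)).a₂ ∈ A :=
      (A.valuation_le_one_iff _).mp hI.a₂
    have ha₃ : ((W.map (Int.castRingHom ℚ))⁄(AlgebraicClosure ℚ)).a₃ ∈ A :=
      (A.valuation_le_one_iff _).mp hI.a₃
    have ha₄ : ((W.map (Int.castRingHom ℚ))⁄(AlgebraicClosure ℚ)).a₄ ∈ A :=
      (A.valuation_le_one_iff _).mp hI.a₄
    have hpd : n • (σ • (Point.some x y h : EPt W) - Point.some x y h) = 0 := by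
      have h1 : n • (σ • (Point.some x y h : EPt W)) = 0 := by
        rw [← natCast_zsmul (σ • (Point.some x y h : EPt W)) n,
          ← WeierstrassCurve.Affine.Point.algEquiv_smul_zsmul, natCast_zsmul, hP, smul_zero]
      rw [nsmul_sub, h1, hP, sub_zero]
    rcases Fermat.Agent.H8.inertia_smul_sub_of_nonsingular_reduction A ha₁ ha₂ ha₃ ha₄ hσ h
      hx hy hns with h0 | ⟨x₃, y₃, h₃, he, hx₃⟩
    · exact sub_eq_zero.mp h0
    · exfalso
      rw [he] at hpd
      have hK : Fermat.Agent.H26.InKer A.valuation (Point.some x₃ y₃ h₃) :=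
        (Fermat.Agent.H26.one_lt_valuation_iff A).mpr hx₃
      have h0 := Fermat.Agent.H26.eq_zero_of_nsmul_eq_zero hI hK
        (Fermat.Agent.H4.valuation_natCast_eq_one A hq hA hqn) hpd
      cases h0

/-- **GOOD-ALL** (row 1101). -/
theorem goodRedAll : GoodRedAllStatement := by
  intro W q hq hgood A hA n hqn _ P hP
  haveI : Fact q.Prime := ⟨hq⟩
  have hE := Fermat.Agent.H4.map_subtype_eq A W
  rcases P with _ | ⟨x, y, h⟩
  · trivial
  · have hx : x ∈ A := s58_x_mem W hq A hA hqn h hP
    have hy : y ∈ A := Fermat.Agent.H4.mem_of_nonsingular (W.map (Int.castRingHom A)) hE h hx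
    refine ⟨hx, hy, ?_⟩
    have hEq : (W.map (Int.castRingHom A)).toAffine.Equation (⟨x, hx⟩ : A) ⟨y, hy⟩ := by
      apply Fermat.Agent.H4.equation_of_mem
      have h1 := h.1
      rw [← hE] at h1
      exact h1
    have hns := Fermat.Agent.H4.nonsingular_red (W.map (Int.castRingHom A)).toAffine
      (Fermat.Agent.H4.residue_Δ_ne_zero A W hA hgood) hEq
    rw [WeierstrassCurve.Affine.nonsingular_iff'] at hns
    obtain ⟨-, hpart⟩ := hns
    have hc : ∀ z : ℤ, (algebraMap ℚ (AlgebraicClosure ℚ)) ((Int.castRingHom ℚ) z) =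
        (((Int.castRingHom ↥A) z : ↥A) : AlgebraicClosure ℚ) := by
      intro z
      simp
    by_contra hcon
    rw [not_or, not_not, not_not] at hcon
    obtain ⟨c1, c2⟩ := hcon
    rcases hpart with h1 | h2
    · apply h1
      have hz : IsLocalRing.residue A
          ((W.map (Int.castRingHom A)).a₁ * ⟨y, hy⟩ -
            (3 * (⟨x, hx⟩ : A) ^ 2 + 2 * (W.map (Int.castRingHom A)).a₂ * ⟨x, hx⟩ +
              (W.map (Int.castRingHom A)).a₄)) = 0 := by
        rw [Fermat.Agent.H4.isResidueMap_residue A]
        rw [← A.mem_nonunits_iff]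
        convert c1 using 1
        simp only [WeierstrassCurve.map_a₁, WeierstrassCurve.map_a₂, WeierstrassCurve.map_a₄,
          WeierstrassCurve.baseChange]
        push_cast
        simp only [hc]
        rfl
      simp only [map_sub, map_add, map_mul, map_pow, map_ofNat] at hz
      simp only [WeierstrassCurve.map_a₁, WeierstrassCurve.map_a₂, WeierstrassCurve.map_a₄]
      exact hz
    · apply h2
      have hz : IsLocalRing.residue A
          (2 * ⟨y, hy⟩ + (W.map (Int.castRingHom A)).a₁ * ⟨x, hx⟩ +
            (W.map (Int.castRingHom A)).a₃) = 0 := by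
        rw [Fermat.Agent.H4.isResidueMap_residue A]
        rw [← A.mem_nonunits_iff]
        convert c2 using 1
        simp only [WeierstrassCurve.map_a₁, WeierstrassCurve.map_a₃,
          WeierstrassCurve.baseChange]
        push_cast
        simp only [hc]
        rfl
      simp only [map_add, map_mul, map_ofNat] at hz
      simp only [WeierstrassCurve.map_a₁, WeierstrassCurve.map_a₃]
      exact hz

end Fermat.Agent.H39.S58

end
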